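import Mathlib
import Fermat.Agent.GR.G.Euler
import Fermat.Agent.S48.Cheb.Twist.Theta

/-!
# S48 / Cheb / Euler : the finite Euler identity for `L_K(s, χ ∘ N)` (complex copy of `GR.G.euler_finite_aux`)
-/

set_option autoImplicit false

open NumberField IsDedekindDomain
open scoped nonZeroDivisors

namespace Fermat.Agent.S48.Cheb

open Fermat.Agent.GR.G Fermat.Agent.S14.CZ

variable (K : Type*) [Field K] [NumberField K] {m : ℕ} (χ : DirichletCharacter ℂ m)

lemma Finite_tsum_insert [DecidableEq (HeightOneSpectrum (𝓞 K))]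
    {T : Finset (HeightOneSpectrum (𝓞 K))} {v : HeightOneSpectrum (𝓞 K)}
    (hv : v ∉ T) {s : ℝ} (hs : 1 < s) :
    ∑' I, (euler_S K (insert v T)).indicator (LTerm K χ s) I =
      (1 - LTerm K χ s (euler_v K v)) * ∑' I, (euler_S K T).indicator (LTerm K χ s) I := by
  have hdec : ∀ I : (Ideal (𝓞 K))⁰, Decidable (v.asIdeal ∣ (I : Ideal (𝓞 K))) :=
    fun _ => Classical.propDecidable _
  set g := (euler_S K T).indicator (LTerm K χ s) with hg
  let h : (Ideal (𝓞 K))⁰ → ℂ := fun I => if v.asIdeal ∣ (I : Ideal (𝓞 K)) then g I else 0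
  have hgs : Summable g := (summable_LTerm K χ hs).indicator _
  have hhs : Summable h := by
    have : h = {I : (Ideal (𝓞 K))⁰ | v.asIdeal ∣ (I : Ideal (𝓞 K))}.indicator g := by
      funext I
      by_cases hvI : v.asIdeal ∣ (I : Ideal (𝓞 K))
      · rw [Set.indicator_of_mem (show I ∈ {I : (Ideal (𝓞 K))⁰ | v.asIdeal ∣ (I : Ideal (𝓞 K))}
          from hvI)]
        simp only [h, hvI, if_true]
      · rw [Set.indicator_of_notMem (show I ∉ {I : (Ideal (𝓞 K))⁰ |
          v.asIdeal ∣ (I : Ideal (𝓞 K))} from hvI)]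
        simp only [h, hvI, if_false]
    rw [this]
    exact hgs.indicator _
  have h1 : ∀ I, (euler_S K (insert v T)).indicator (LTerm K χ s) I = g I - h I := by
    intro I
    by_cases hvI : v.asIdeal ∣ (I : Ideal (𝓞 K))
    · have : I ∉ euler_S K (insert v T) := fun hI => hI v (Finset.mem_insert_self v T) hvI
      simp [h, hvI, Set.indicator_of_notMem this]
    · have : I ∈ euler_S K (insert v T) ↔ I ∈ euler_S K T := by
        unfold euler_S
        simp only [Set.mem_ofPred_eq, Finset.forall_mem_insert]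
        tauto
      simp only [h, hvI, if_false, sub_zero, hg]
      by_cases hI : I ∈ euler_S K T
      · rw [Set.indicator_of_mem hI, Set.indicator_of_mem (this.mpr hI)]
      · rw [Set.indicator_of_notMem hI, Set.indicator_of_notMem (fun h' => hI (this.mp h'))]
  have hinj : Function.Injective (fun J : (Ideal (𝓞 K))⁰ => euler_v K v * J) :=
    mul_right_injective _
  have hsupp : Function.support h ⊆ Set.range (fun J : (Ideal (𝓞 K))⁰ => euler_v K v * J) := by
    intro I hI
    have hvI : v.asIdeal ∣ (I : Ideal (𝓞 K)) := by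
      by_contra hn
      exact hI (by simp [h, hn])
    obtain ⟨J, hJ⟩ := hvI
    have hJ0 : J ≠ 0 := by
      rintro rfl
      rw [mul_zero] at hJ
      exact nonZeroDivisors.coe_ne_zero I hJ
    exact ⟨⟨J, mem_nonZeroDivisors_of_ne_zero hJ0⟩, Subtype.ext hJ.symm⟩
  have h2 : ∑' I, h I = LTerm K χ s (euler_v K v) * ∑' I, g I := by
    rw [← hinj.tsum_eq hsupp, ← tsum_mul_left]
    refine tsum_congr (fun J => ?_)
    have hd : v.asIdeal ∣ ((euler_v K v * J : (Ideal (𝓞 K))⁰) : Ideal (𝓞 K)) :=
      Dvd.intro _ rfl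
    simp only [h, hd, if_true, hg]
    by_cases hJ : J ∈ euler_S K T
    · rw [Set.indicator_of_mem hJ, Set.indicator_of_mem ((euler_mul_mem_S hv J).mpr hJ),
        LTerm_mul]
    · rw [Set.indicator_of_notMem hJ,
        Set.indicator_of_notMem (fun h' => hJ ((euler_mul_mem_S hv J).mp h')), mul_zero]
  rw [tsum_congr h1, hgs.tsum_sub hhs, h2]
  ring

theorem euler_finite_twisted (T : Finset (HeightOneSpectrum (𝓞 K))) {s : ℝ} (hs : 1 < s) :
    (∏ v ∈ T, (1 - LTerm K χ s (euler_v K v))) * LK K χ s =
      ∑' I, (euler_S K T).indicator (LTerm K χ s) I := by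
  classical
  induction T using Finset.induction_on with
  | empty =>
    have : euler_S K (∅ : Finset (HeightOneSpectrum (𝓞 K))) = Set.univ := by
      unfold euler_S
      simp
    rw [this, Set.indicator_univ, Finset.prod_empty, one_mul]
    rfl
  | insert v T hv ih =>
    rw [Finset.prod_insert hv, mul_assoc, ih, Finite_tsum_insert K χ hv hs]

end Fermat.Agent.S48.Cheb
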