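import Mathlib
import Fermat.Agent.GR.G.Euler
import Fermat.Agent.S48.Cheb.Twist.Theta

/-!
# S48 / Cheb / Euler : the sum over the ideals `≠ 1` prime to `T` is small for `T` large
-/

set_option autoImplicit false

open NumberField IsDedekindDomain
open scoped nonZeroDivisors

namespace Fermat.Agent.S48.Cheb

open Fermat.Agent.GR.G Fermat.Agent.S14.CZ

variable (K : Type*) [Field K] [NumberField K] {m : ℕ} (χ : DirichletCharacter ℂ m)

/-- For `T ⊇ T₀` the sum over the ideals prime to `T` is within `1/2` of its term at `I = 1`. -/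
theorem exists_norm_tsum_indicator_sub_one_le {s : ℝ} (hs : 1 < s) :
    ∃ T₀ : Finset (HeightOneSpectrum (𝓞 K)), ∀ T : Finset (HeightOneSpectrum (𝓞 K)), T₀ ⊆ T →
      ‖∑' I, (euler_S K T).indicator (LTerm K χ s) I - 1‖ ≤ 1 / 2 := by
  classical
  have hsum := euler_summable (K := K) hs
  obtain ⟨F, hF⟩ := (hsum.hasSum.eventually
    (lt_mem_nhds (sub_lt_self (∑' I, euler_f K s I) (by norm_num : (0 : ℝ) < 1 / 2)))).exists
  let T₀ : Finset (HeightOneSpectrum (𝓞 K)) :=
    F.biUnion (fun I => (Ideal.finite_factors (nonZeroDivisors.coe_ne_zero I)).toFinset)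
  refine ⟨T₀, fun T hT => ?_⟩
  have hs1 : HasSum (fun I : (Ideal (𝓞 K))⁰ => (if I = 1 then (1 : ℂ) else 0)) 1 :=
    hasSum_ite_eq 1 (1 : ℂ)
  have hsL : Summable ((euler_S K T).indicator (LTerm K χ s)) :=
    (summable_LTerm K χ hs).indicator _
  have h1 : ∑' I, (euler_S K T).indicator (LTerm K χ s) I - 1 =
      ∑' I, ((euler_S K T).indicator (LTerm K χ s) I - (if I = 1 then (1 : ℂ) else 0)) := by
    rw [hsL.tsum_sub hs1.summable, hs1.tsum_eq]
  rw [h1]
  have hpt : ∀ I, ‖(euler_S K T).indicator (LTerm K χ s) I - (if I = 1 then (1 : ℂ) else 0)‖ ≤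
      ((F : Set (Ideal (𝓞 K))⁰)ᶜ).indicator (euler_f K s) I := by
    intro I
    have hn : 0 ≤ ((F : Set (Ideal (𝓞 K))⁰)ᶜ).indicator (euler_f K s) I :=
      Set.indicator_nonneg (fun I _ => euler_f_nonneg s I) I
    by_cases hI1 : I = 1
    · subst hI1
      rw [Set.indicator_of_mem (euler_one_mem_S T), LTerm_one, if_pos rfl, sub_self, norm_zero]
      exact hn
    · rw [if_neg hI1, sub_zero]
      by_cases hI : I ∈ euler_S K T
      · rw [Set.indicator_of_mem hI]
        have hIF : I ∉ F := by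
          intro hIF
          apply hI1
          apply euler_eq_one_of_forall_not_dvd
          intro v hv
          refine hI v (hT ?_) hv
          rw [Finset.mem_biUnion]
          exact ⟨I, hIF, by simpa using hv⟩
        have : I ∈ ((F : Set (Ideal (𝓞 K))⁰)ᶜ) := by simpa using hIF
        rw [Set.indicator_of_mem this]
        exact norm_LTerm_le K χ s I
      · rw [Set.indicator_of_notMem hI, norm_zero]
        exact hn
  have hs2 := euler_summable_indicator hs ((F : Set (Ideal (𝓞 K))⁰)ᶜ)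
  refine (tsum_of_norm_bounded hs2.hasSum hpt).trans ?_
  have h2 := hsum.sum_add_tsum_compl (s := F)
  rw [tsum_subtype] at h2
  linarith

theorem summable_PK {s : ℝ} (hs : 1 < s) :
    Summable fun v : HeightOneSpectrum (𝓞 K) =>
      chiN K χ v.asIdeal * (((Ideal.absNorm v.asIdeal : ℝ) ^ (-s) : ℝ) : ℂ) := by
  have h := (summable_LTerm K χ hs).comp_injective (euler_v_injective (K := K))
  exact h

/-- `|1 - a| ≤ exp (- Re a + |a|^2)`. -/
theorem norm_one_sub_le_exp (a : ℂ) : ‖1 - a‖ ≤ Real.exp (-a.re + ‖a‖ ^ 2) := by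
  have h1 : ‖1 - a‖ ^ 2 = 1 - 2 * a.re + ‖a‖ ^ 2 := by
    rw [Complex.sq_norm, Complex.sq_norm, Complex.normSq_apply, Complex.normSq_apply]
    simp only [Complex.sub_re, Complex.one_re, Complex.sub_im, Complex.one_im]
    ring
  have h2 : ‖1 - a‖ ^ 2 ≤ Real.exp (-a.re + ‖a‖ ^ 2) ^ 2 := by
    rw [h1, ← Real.exp_nat_mul]
    have h4 := Real.add_one_le_exp (-2 * a.re + ‖a‖ ^ 2)
    have h3 : Real.exp (-2 * a.re + ‖a‖ ^ 2) ≤
        Real.exp (((2 : ℕ) : ℝ) * (-a.re + ‖a‖ ^ 2)) := by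
      apply Real.exp_le_exp.2
      push_cast
      nlinarith [sq_nonneg ‖a‖]
    linarith
  exact (pow_le_pow_iff_left₀ (norm_nonneg _) (Real.exp_pos _).le two_ne_zero).1 h2

end Fermat.Agent.S48.Cheb
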