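import Mathlib
import Fermat.Agent.S48.Cheb.Euler.Finite
import Fermat.Agent.S48.Cheb.Euler.Tail

/-!
# S48 / Cheb / Euler : (U2) `exp (Re P_K(s, χ) - C) ≤ |L_K(s, χ ∘ N)|`
-/

set_option autoImplicit false

open NumberField IsDedekindDomain
open scoped nonZeroDivisors

namespace Fermat.Agent.S48.Cheb

open Fermat.Agent.GR.G Fermat.Agent.S14.CZ

variable (K : Type*) [Field K] [NumberField K] {m : ℕ} (χ : DirichletCharacter ℂ m)

theorem Lower_norm_prod_le (T : Finset (HeightOneSpectrum (𝓞 K))) {s : ℝ} (hs : 1 < s) :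
    ‖∏ v ∈ T, (1 - LTerm K χ s (euler_v K v))‖ ≤
      Real.exp (-(∑ v ∈ T, LTerm K χ s (euler_v K v)).re + primeZeta K 2) := by
  rw [norm_prod]
  have h1 : ∏ v ∈ T, ‖1 - LTerm K χ s (euler_v K v)‖ ≤
      ∏ v ∈ T, Real.exp (-(LTerm K χ s (euler_v K v)).re + ‖LTerm K χ s (euler_v K v)‖ ^ 2) :=
    Finset.prod_le_prod (fun v _ => norm_nonneg _) (fun v _ => norm_one_sub_le_exp _)
  refine h1.trans ?_
  rw [← Real.exp_sum, Real.exp_le_exp, Finset.sum_add_distrib, Complex.re_sum,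
    Finset.sum_neg_distrib]
  refine add_le_add le_rfl ?_
  have h2 : ∑ v ∈ T, ‖LTerm K χ s (euler_v K v)‖ ^ 2 ≤ ∑ v ∈ T, euler_f K 2 (euler_v K v) := by
    refine Finset.sum_le_sum fun v _ => ?_
    refine le_trans ?_ (euler_f_v_sq_le hs v)
    exact pow_le_pow_left₀ (norm_nonneg _) (norm_LTerm_le K χ s (euler_v K v)) 2
  refine h2.trans ?_
  exact (summable_primeZeta K (by norm_num : (1 : ℝ) < 2)).sum_le_tsum T
    (fun v _ => euler_f_nonneg 2 (euler_v K v))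

/-- **(U2)** -/
theorem exists_exp_le_norm_LK :
    ∃ C : ℝ, ∀ s : ℝ, 1 < s → Real.exp ((PK K χ s).re - C) ≤ ‖LK K χ s‖ := by
  refine ⟨1 + Real.log 2 + primeZeta K 2, fun s hs => ?_⟩
  obtain ⟨T₀, hT₀⟩ := exists_norm_tsum_indicator_sub_one_le K χ hs
  have hsum : HasSum (fun v : HeightOneSpectrum (𝓞 K) => LTerm K χ s (euler_v K v)) (PK K χ s) :=
    (summable_PK K χ hs).hasSum
  have hev : ∀ᶠ T in Filter.atTop,
      dist (∑ v ∈ T, LTerm K χ s (euler_v K v)) (PK K χ s) < 1 := by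
    have := hsum.eventually (Metric.ball_mem_nhds _ one_pos)
    simpa using this
  obtain ⟨T, hT1, hT2⟩ := (hev.and (Filter.eventually_ge_atTop T₀)).exists
  have h1 := euler_finite_twisted K χ T hs
  have h2 := hT₀ T hT2
  rw [← h1] at h2
  -- `1/2 ≤ ‖∏ * LK‖`
  have h3 : 1 / 2 ≤ ‖(∏ v ∈ T, (1 - LTerm K χ s (euler_v K v))) * LK K χ s‖ := by
    have h4 := norm_sub_norm_le (1 : ℂ) ((∏ v ∈ T, (1 - LTerm K χ s (euler_v K v))) * LK K χ s)
    rw [norm_one, norm_sub_rev] at h4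
    linarith
  rw [norm_mul] at h3
  have h5 := Lower_norm_prod_le K χ T hs
  have h6 : (PK K χ s).re - 1 ≤ (∑ v ∈ T, LTerm K χ s (euler_v K v)).re := by
    have h7 := Complex.abs_re_le_norm (∑ v ∈ T, LTerm K χ s (euler_v K v) - PK K χ s)
    rw [← dist_eq_norm, Complex.sub_re] at h7
    have h8 := (abs_le.mp (h7.trans hT1.le)).1
    linarith
  have h9 : ‖∏ v ∈ T, (1 - LTerm K χ s (euler_v K v))‖ ≤
      Real.exp (-((PK K χ s).re - 1) + primeZeta K 2) :=
    h5.trans (Real.exp_le_exp.mpr (by linarith))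
  have h10 : 1 / 2 ≤ Real.exp (-((PK K χ s).re - 1) + primeZeta K 2) * ‖LK K χ s‖ :=
    h3.trans (mul_le_mul_of_nonneg_right h9 (norm_nonneg _))
  have h11 : Real.exp ((PK K χ s).re - (1 + Real.log 2 + primeZeta K 2)) =
      (Real.exp (-((PK K χ s).re - 1) + primeZeta K 2))⁻¹ * (1 / 2) := by
    rw [← Real.exp_neg, show (1 / 2 : ℝ) = Real.exp (-Real.log 2) by
      rw [Real.exp_neg, Real.exp_log (by norm_num)]; norm_num, ← Real.exp_add]
    congr 1
    ring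
  rw [h11, inv_mul_le_iff₀ (Real.exp_pos _)]
  exact h10

end Fermat.Agent.S48.Cheb
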